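import Mathlib

/-!
# S18 / RED piece 3: abstract degree / separability lemma  (helper2089)

`k ⊆ W ⊆ L` fields with `[W : k] ≤ n`, `z ∈ W`, and `n` "conjugations" of `z` over `k` taking
pairwise distinct values in a field `T`.  Then `k(z) = W`, `[W : k] = n` and `z` is separable.
-/

set_option autoImplicit false

namespace Fermat.Agent.S18.RED2089

open Polynomial IntermediateField

variable {k L T : Type*} [Field k] [Field L] [Algebra k L] [Field T]

/-- If `z` has `card ι` pairwise distinct "conjugates" `g u` (roots of every polynomial killing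
`z`, transported by `τ`), then its minimal polynomial has degree at least `card ι`. -/
theorem card_le_natDegree_minpoly {ι : Type*} [Fintype ι] (z : L) (hz : IsIntegral k z)
    (τ : k →+* T) (g : ι → T) (hg : Function.Injective g)
    (h : ∀ u, ∀ p : k[X], eval₂ (algebraMap k L) z p = 0 → eval₂ τ (g u) p = 0) :
    Fintype.card ι ≤ (minpoly k z).natDegree := by
  classical
  have hm0 : minpoly k z ≠ 0 := minpoly.ne_zero hz
  have hm0' : (minpoly k z).map τ ≠ 0 := (Polynomial.map_ne_zero_iff τ.injective).mpr hm0
  have hroot : ∀ u, g u ∈ ((minpoly k z).map τ).roots := by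
    intro u
    rw [mem_roots hm0', IsRoot.def, eval_map]
    exact h u _ (minpoly.aeval k z)
  have h1 : (Finset.univ.image g) ⊆ ((minpoly k z).map τ).roots.toFinset := by
    intro x hx
    obtain ⟨u, -, rfl⟩ := Finset.mem_image.mp hx
    exact Multiset.mem_toFinset.mpr (hroot u)
  calc Fintype.card ι = (Finset.univ.image g).card := by
        rw [Finset.card_image_of_injective _ hg, Finset.card_univ]
    _ ≤ ((minpoly k z).map τ).roots.toFinset.card := Finset.card_le_card h1
    _ ≤ Multiset.card ((minpoly k z).map τ).roots := Multiset.toFinset_card_le _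
    _ ≤ ((minpoly k z).map τ).natDegree := card_roots' _
    _ = (minpoly k z).natDegree := natDegree_map _

/-- If moreover the degree of the minimal polynomial is `card ι`, then `z` is separable. -/
theorem isSeparable_of_conj {ι : Type*} [Fintype ι] (z : L) (hz : IsIntegral k z)
    (τ : k →+* T) (g : ι → T) (hg : Function.Injective g)
    (h : ∀ u, ∀ p : k[X], eval₂ (algebraMap k L) z p = 0 → eval₂ τ (g u) p = 0)
    (hdeg : (minpoly k z).natDegree ≤ Fintype.card ι) : IsSeparable k z := by
  classical
  have hm0 : minpoly k z ≠ 0 := minpoly.ne_zero hz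
  have hm0' : (minpoly k z).map τ ≠ 0 := (Polynomial.map_ne_zero_iff τ.injective).mpr hm0
  have hroot : ∀ u, g u ∈ ((minpoly k z).map τ).roots := by
    intro u
    rw [mem_roots hm0', IsRoot.def, eval_map]
    exact h u _ (minpoly.aeval k z)
  set s : Multiset T := (Finset.univ : Finset ι).val.map g with hs
  have hsnd : s.Nodup := Multiset.Nodup.map hg Finset.univ.nodup
  have hsle : s ≤ ((minpoly k z).map τ).roots := by
    rw [Multiset.le_iff_subset hsnd]
    intro x hx
    obtain ⟨u, -, rfl⟩ := Multiset.mem_map.mp hx
    exact hroot u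
  have hscard : Multiset.card s = Fintype.card ι := by
    rw [hs, Multiset.card_map]; rfl
  have hrc : Multiset.card ((minpoly k z).map τ).roots ≤ Multiset.card s := by
    rw [hscard]
    exact (card_roots' _).trans ((natDegree_map (p := minpoly k z) τ).le.trans hdeg)
  have hseq : s = ((minpoly k z).map τ).roots := Multiset.eq_of_le_of_card_le hsle hrc
  have hsplit : ((minpoly k z).map τ).Splits := by
    rw [splits_iff_card_roots]
    apply le_antisymm (card_roots' _)
    rw [← hseq, hscard, natDegree_map]
    exact hdeg
  have hsep : ((minpoly k z).map τ).Separable :=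
    (nodup_roots_iff_of_splits hm0' hsplit).mp (hseq ▸ hsnd)
  exact (separable_map τ).mp hsep

/-- **Degree / separability lemma.** -/
theorem adjoin_eq_of_conj {ι : Type*} [Fintype ι] (W : IntermediateField k L)
    [FiniteDimensional k W] (z : L) (hzW : z ∈ W)
    (hW : Module.finrank k W ≤ Fintype.card ι)
    (τ : k →+* T) (g : ι → T) (hg : Function.Injective g)
    (h : ∀ u, ∀ p : k[X], eval₂ (algebraMap k L) z p = 0 → eval₂ τ (g u) p = 0) :
    k⟮z⟯ = W ∧ Module.finrank k W = Fintype.card ι ∧ IsSeparable k z := by
  have hz : IsIntegral k z := by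
    have h1 : IsIntegral k (⟨z, hzW⟩ : W) := IsIntegral.of_finite k _
    have h2 := h1.map (W.val)
    simpa using h2
  have hle : k⟮z⟯ ≤ W := by
    rw [adjoin_simple_le_iff]; exact hzW
  have hdeg := card_le_natDegree_minpoly z hz τ g hg h
  have hfin : Module.finrank k k⟮z⟯ = (minpoly k z).natDegree := adjoin.finrank hz
  have heq : k⟮z⟯ = W := eq_of_le_of_finrank_le hle (by rw [hfin]; exact hW.trans hdeg)
  have hle2 : Module.finrank k k⟮z⟯ ≤ Module.finrank k W := by rw [heq]
  refine ⟨heq, le_antisymm hW (hdeg.trans (hfin ▸ hle2)), ?_⟩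
  exact isSeparable_of_conj z hz τ g hg h (by rw [← hfin]; exact hle2.trans hW)

end Fermat.Agent.S18.RED2089
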