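import Fermat.Agent.S18.RED.P2
import Fermat.Agent.S18.RED2089.DegSep

/-!
# S18 / RED piece 3: the core of DEGSEP  (helper2089)

From a `D : FieldAN N K'` (conjugate expansions over an extension `K'` of `K`) and piece 2:
`K(j)(j(q^N)) = K(j)(y)`, of degree `ψ(N)` over `K(j)`, and `j(q^N)` is separable over `K(j)`.
-/

set_option autoImplicit false

noncomputable section

namespace Fermat.Agent.S18.RED2089

open ModularCurve Polynomial IntermediateField Fermat.Agent.S18

variable (N : ℕ) [NeZero N] {K K' : Type} [Field K] [Field K'] [Algebra K K'] (D : FieldAN N K')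

theorem jqModC_mem_KjC (K : Type) [Field K] : jqModC K ∈ KjC K :=
  subset_adjoin K _ (Set.mem_singleton _)

/-- `K[X] → K(j)`, `X ↦ j`. -/
def toKj (K : Type) [Field K] : K[X] →+* ↥(KjC K) :=
  (aeval (⟨jqModC K, jqModC_mem_KjC K⟩ : ↥(KjC K)) : K[X] →ₐ[K] ↥(KjC K)).toRingHom

theorem algebraMap_comp_toKj (K : Type) [Field K] :
    (algebraMap ↥(KjC K) (LaurentSeries K)).comp (toKj K) =
      (aeval (jqModC K) : K[X] →ₐ[K] LaurentSeries K).toRingHom := by
  refine RingHom.ext fun p => ?_
  exact (aeval_algebraMap_apply (LaurentSeries K) (⟨jqModC K, jqModC_mem_KjC K⟩ : ↥(KjC K)) p).symm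

theorem toT_yUnit :
    toT N K K' (Fermat.Agent.S28.yUnit K N : LaurentSeries K) = (D.Y D.u₀ : LaurentSeries K') := by
  rw [D.base_Y]
  show qExpand K' N (coeffMap (algebraMap K K') (Fermat.Agent.S28.yUnit K N : LaurentSeries K)) = _
  rw [Fermat.Agent.S28.QRed.coeffMap_yUnit]

omit [NeZero N] in
/-- `(K(j)(y))` restricted to `K` is `K(j, y)`. -/
theorem restrictScalars_adjoin_yUnit (K : Type) [Field K] :
    (adjoin ↥(KjC K) {(Fermat.Agent.S28.yUnit K N : LaurentSeries K)}).restrictScalars K =
      KjyC N K := by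
  have h := adjoin_adjoin_left K {jqModC K} {(Fermat.Agent.S28.yUnit K N : LaurentSeries K)}
  rw [Set.singleton_union] at h
  exact h

/-- `(K(j)(z))` restricted to `K` is `K(j, z)`. -/
theorem restrictScalars_adjoin_simple (K : Type) [Field K] (z : LaurentSeries K) :
    (adjoin ↥(KjC K) {z}).restrictScalars K = adjoin K {jqModC K, z} := by
  have h := adjoin_adjoin_left K {jqModC K} {z}
  rw [Set.singleton_union] at h
  exact h

include D in
/-- `y` is a root of a monic polynomial of degree `ψ(N)` over `K(j)`. -/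
theorem exists_monic_yUnit :
    ∃ Q : (↥(KjC K))[X], Q.Monic ∧ Q.natDegree = psiIdx N ∧
      eval₂ (algebraMap ↥(KjC K) (LaurentSeries K))
        (Fermat.Agent.S28.yUnit K N : LaurentSeries K) Q = 0 := by
  obtain ⟨P, hPm, hPd, hP⟩ := exists_charpoly_yUnit (K := K) N D
  refine ⟨P.map (toKj K), hPm.map _, by rw [hPm.natDegree_map, hPd], ?_⟩
  rw [eval₂_map, algebraMap_comp_toKj]
  apply (toT N K K').injective
  rw [map_zero, hom_eval₂, ← eval_map, hP, eval_prod]
  refine Finset.prod_eq_zero (Finset.mem_univ D.u₀) ?_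
  rw [eval_sub, eval_X, eval_C, toT_yUnit N D, sub_self]

include D in
theorem isIntegral_yUnit :
    IsIntegral ↥(KjC K) (Fermat.Agent.S28.yUnit K N : LaurentSeries K) := by
  obtain ⟨Q, hQm, -, hQ⟩ := exists_monic_yUnit (K := K) N D
  exact ⟨Q, hQm, hQ⟩

include D in
theorem finrank_adjoin_yUnit_le :
    Module.finrank ↥(KjC K)
      ↥(adjoin ↥(KjC K) {(Fermat.Agent.S28.yUnit K N : LaurentSeries K)}) ≤ psiIdx N := by
  obtain ⟨Q, hQm, hQd, hQ⟩ := exists_monic_yUnit (K := K) N D
  rw [adjoin.finrank (isIntegral_yUnit (K := K) N D), ← hQd]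
  exact natDegree_le_natDegree (minpoly.min _ _ hQm hQ)

omit [NeZero N] in
theorem KjC_le_KjyC (K : Type) [Field K] : KjC K ≤ KjyC N K := by
  rw [KjC, adjoin_le_iff]
  rintro x rfl
  exact subset_adjoin K _ (Set.mem_insert _ _)

include D in
/-- the conjugates `D.J u N` are "roots" of everything killing `z = j(q^N)` over `K(j)`. -/
theorem conj_roots (u : D.ι) (p : (↥(KjC K))[X])
    (hp : eval₂ (algebraMap ↥(KjC K) (LaurentSeries K)) (qExpand K N (jqModC K)) p = 0) :
    eval₂ ((toT N K K').comp (algebraMap ↥(KjC K) (LaurentSeries K))) (D.J u N) p = 0 := by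
  obtain ⟨σ, hσ1, -, hσ3, -⟩ := exists_conj_emb (K := K) N D
  set incl : ↥(KjC K) →+* ↥(KjyC N K) := (inclusion (KjC_le_KjyC N K)).toRingHom with hincl
  set z' : ↥(KjyC N K) := ⟨qExpand K N (jqModC K), jd_mem_KjyC (K := K) N D N dvd_rfl⟩ with hz'
  have hval : (KjyC N K).val.toRingHom.comp incl = algebraMap ↥(KjC K) (LaurentSeries K) :=
    RingHom.ext fun x => rfl
  have h0 : eval₂ incl z' p = 0 := by
    apply (KjyC N K).val.toRingHom.injective
    rw [map_zero, hom_eval₂, hval]
    exact hp
  have hcomp : (σ u).comp incl = (toT N K K').comp (algebraMap ↥(KjC K) (LaurentSeries K)) :=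
    RingHom.ext fun x => hσ1 u (incl x) x.2
  have h1 := congrArg (σ u) h0
  rw [map_zero, hom_eval₂, hcomp, hσ3 u N dvd_rfl z' rfl] at h1
  exact h1

include D in
/-- **Core of DEGSEP.** -/
theorem core :
    adjoin ↥(KjC K) {qExpand K N (jqModC K)} =
        adjoin ↥(KjC K) {(Fermat.Agent.S28.yUnit K N : LaurentSeries K)} ∧
      Module.finrank ↥(KjC K)
        ↥(adjoin ↥(KjC K) {(Fermat.Agent.S28.yUnit K N : LaurentSeries K)}) = psiIdx N ∧
      IsSeparable ↥(KjC K) (qExpand K N (jqModC K)) := by
  have : FiniteDimensional ↥(KjC K)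
      ↥(adjoin ↥(KjC K) {(Fermat.Agent.S28.yUnit K N : LaurentSeries K)}) :=
    adjoin.finiteDimensional (isIntegral_yUnit (K := K) N D)
  have hzW : qExpand K N (jqModC K) ∈
      adjoin ↥(KjC K) {(Fermat.Agent.S28.yUnit K N : LaurentSeries K)} := by
    have h := jd_mem_KjyC (K := K) N D N dvd_rfl
    rw [← restrictScalars_adjoin_yUnit N K] at h
    exact h
  have hg : Function.Injective (fun u : D.ι => D.J u N) := by
    intro u u' h
    by_contra hne
    exact D.sep_J u u' hne h
  have hmain := adjoin_eq_of_conj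
    (adjoin ↥(KjC K) {(Fermat.Agent.S28.yUnit K N : LaurentSeries K)})
    (qExpand K N (jqModC K)) hzW
    (by rw [D.card_eq]; exact finrank_adjoin_yUnit_le (K := K) N D)
    ((toT N K K').comp (algebraMap ↥(KjC K) (LaurentSeries K))) (fun u : D.ι => D.J u N) hg
    (fun u p hp => conj_roots N D u p hp)
  rw [D.card_eq] at hmain
  exact hmain

include D in
theorem adjoin_pair_eq_KjyC :
    adjoin K {jqModC K, qExpand K N (jqModC K)} = KjyC N K := by
  rw [← restrictScalars_adjoin_simple, ← restrictScalars_adjoin_yUnit, (core (K := K) N D).1]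

include D in
theorem full_eq_KjyC_of : modularFunctionFieldFullC K N = KjyC N K := by
  refine le_antisymm (full_le_KjyC N D) ?_
  rw [← adjoin_pair_eq_KjyC N D, adjoin_le_iff]
  rintro x (rfl | rfl)
  · exact jqModC_mem_full K N
  · exact jqModCd_mem_full K N dvd_rfl

include D in
theorem extendScalars_full_eq (h : KjC K ≤ modularFunctionFieldFullC K N) :
    extendScalars h =
      adjoin ↥(KjC K) {(Fermat.Agent.S28.yUnit K N : LaurentSeries K)} := by
  apply restrictScalars_injective K
  rw [extendScalars_restrictScalars, restrictScalars_adjoin_yUnit, full_eq_KjyC_of N D]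

include D in
theorem finrank_full_of (h : KjC K ≤ modularFunctionFieldFullC K N) :
    Module.finrank ↥(KjC K) ↥(extendScalars h) = psiIdx N := by
  rw [extendScalars_full_eq N D h]
  exact (core (K := K) N D).2.1

include D in
theorem finiteDimensional_full_of (h : KjC K ≤ modularFunctionFieldFullC K N) :
    FiniteDimensional ↥(KjC K) ↥(extendScalars h) := by
  rw [extendScalars_full_eq N D h]
  exact adjoin.finiteDimensional (isIntegral_yUnit (K := K) N D)

include D in
theorem isSeparable_full_of (h : KjC K ≤ modularFunctionFieldFullC K N) :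
    Algebra.IsSeparable ↥(KjC K) ↥(extendScalars h) := by
  rw [extendScalars_full_eq N D h, ← (core (K := K) N D).1]
  exact (isSeparable_adjoin_simple_iff_isSeparable _ _).mpr (core (K := K) N D).2.2

end Fermat.Agent.S18.RED2089
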